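import Fermat.Agent.Corollaries.Diff.HilbertReal
import Fermat.Agent.Corollaries.HM.RealExist

/-!
# Class field theory of the quadratic extensions of an arbitrary number field

`K` is any number field, real places are allowed; `S` is a finite set of finite places, `R` a set of
real embeddings.  A function `η` on the finite places with values in `ZMod 2` is a quadratic
character modulo `(S, n, R)` if it kills the divisors prime to `S` of the `x ∈ Kˣ` with
`x ≡ 1 mod v ^ n` for `v ∈ S` and `σ x > 0` for `σ ∈ R` (`IsRayR S n R η`).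

* `exists_kummer_real_all` (**existence theorem**): for such `η` there is `b ∈ Kˣ` with
  `σ b > 0` for `σ ∉ R`, `η v = 0 ↔ b ∈ K_v²` for almost all `v`, and
  `(b, x)_v = ord_v(x) η(v)` for all `v ∉ S`;
* `exists_isRayR` (**reciprocity law**): every `b ∈ Kˣ` arises in this way, with
  `R = {σ | σ b < 0}`;
* `isRayR_iff`: both together;
* `exists_sq_of_agree`: `b` is unique up to squares;
* `narrow_iff`: the case `S = ∅` (unramified extensions; characters of the narrow class group).
-/

set_option autoImplicit false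

namespace Fermat.Agent.Cor.CFT2

open IsDedekindDomain NumberField
open Fermat.Agent.CFT.SUnits (ord div div_apply ord_div ord_mul ord_inv ord_one ord_pow
  finite_ord_ne_zero)
open Fermat.Agent.CFT.Global (locPow E mem_E AboveP ClTrivial LocalSymbols symVec symVec_apply
  dvd_ord_of_mem_locPow pow_mem_locPow cong mem_cong cong_anti mem_locPow indep_cong
  exists_cong_le_locPow exists_good ord_eq_zero_of_mem_cong)
open Fermat.Agent.LT (IsRay rayVal toAdd_rayVal toAdd_rayVal_eq_sum rayVal_of_mem_E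
  toAdd_rayVal_of_single)
open Fermat.Agent.LT.Quad (mem_locPow_iff_sym)
open Fermat.Agent.Cor.HM
open Fermat.Agent.Cor.Diff (smul_eq_zero_of_even smul_congr_of_even toAdd_sym_of_notMem)

section Defs

variable {K : Type*} [Field K] [NumberField K]

/-- Quadratic ray class characters modulo `(S, n, R)`. -/
def IsRayR (S : Finset (HeightOneSpectrum (𝓞 K))) (n : ℕ) (R : Set (K →+* ℝ))
    (η : HeightOneSpectrum (𝓞 K) → ZMod 2) : Prop :=
  ∀ x : Kˣ, (∀ v ∈ S, x ∈ cong v n) → (∀ σ ∈ R, 0 < σ (x : K)) → rayVal S η x = 1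

variable {S T : Finset (HeightOneSpectrum (𝓞 K))} {n : ℕ} {R R' : Set (K →+* ℝ)}
  {η θ : HeightOneSpectrum (𝓞 K) → ZMod 2}

lemma IsRayR.mono_real (h : IsRayR S n R η) (hR : R ⊆ R') : IsRayR S n R' η :=
  fun x hx hs => h x hx fun σ hσ => hs σ (hR hσ)

lemma IsRayR.mono_set (h : IsRayR S n R η) (hST : S ⊆ T) : IsRayR T n R η := by
  classical
  intro x hx hs
  have h1 := h x (fun v hv => hx v (hST hv)) hs
  apply toAdd_eq_zero.mp
  have h2 : (rayVal S η x).toAdd = 0 := toAdd_eq_zero.mpr h1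
  rw [← h2, toAdd_rayVal, toAdd_rayVal]
  refine Finsupp.sum_congr fun v _ => ?_
  by_cases hvT : v ∈ T
  · rw [if_pos hvT]
    split_ifs with hvS
    · rfl
    · have : div x v = 0 := ord_eq_zero_of_mem_cong (hx v hvT)
      rw [this, zero_smul]
  · rw [if_neg hvT, if_neg (fun h' => hvT (hST h'))]

lemma IsRayR.congr (h : IsRayR S n R η) (h' : ∀ v ∉ S, η v = θ v) : IsRayR S n R θ :=
  fun x hx hs => by rw [← Fermat.Agent.LT.rayVal_congr h' x, h x hx hs]

/-- the characters without condition at the real places -/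
lemma isRayR_empty_iff : IsRayR S n (∅ : Set (K →+* ℝ)) η ↔ IsRay S n η :=
  ⟨fun h x hx => h x hx fun _ hσ => absurd hσ (Set.notMem_empty _), fun h x hx _ => h x hx⟩

/-- A ray character kills the elements which are local squares at `S` and positive at `R`. -/
lemma rayVal_eq_one_of_locPow (h : IsRayR S n R η) {x : Kˣ} (hx : ∀ v ∈ S, x ∈ locPow 2 v)
    (hs : ∀ σ ∈ R, 0 < σ (x : K)) : rayVal S η x = 1 := by
  classical
  have h1 : ∀ v : HeightOneSpectrum (𝓞 K), ∃ y : Kˣ, v ∈ S → x / y ^ 2 ∈ cong v n := by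
    intro v
    by_cases hv : v ∈ S
    · obtain ⟨y, hy⟩ := mem_locPow.1 (hx v hv) n
      exact ⟨y, fun _ => hy⟩
    · exact ⟨1, fun h => absurd h hv⟩
  choose y hy using h1
  obtain ⟨z, hz⟩ := indep_cong (K := K) S n y
  have h2 : ∀ v ∈ S, x / z ^ 2 ∈ cong v n := by
    intro v hv
    have h3 : x / z ^ 2 = (x / y v ^ 2) / ((z / y v) ^ 2) := by
      rw [_root_.div_pow, div_div_div_cancel_right]
    rw [h3]
    exact div_mem (hy v hv) (pow_mem (hz v hv) 2)
  have h3 := h _ h2 fun σ hσ => by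
    rw [Units.val_div_eq_div_val, Units.val_pow_eq_pow_val, map_div₀, map_pow]
    have hz0 : σ (z : K) ≠ 0 := (map_ne_zero σ).mpr z.ne_zero
    exact div_pos (hs σ hσ) (by positivity)
  have h4 : x = (x / z ^ 2) * z ^ 2 := (div_mul_cancel x (z ^ 2)).symm
  have h6 : rayVal S η z ^ 2 = 1 := by
    apply Multiplicative.toAdd.injective
    rw [toAdd_pow, toAdd_one, two_nsmul, CharTwo.add_self_eq_zero]
  rw [h4, map_mul, map_pow, h3, h6, mul_one]

end Defs

section Main

variable {K : Type} [Field K] [NumberField K]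
variable {S : Finset (HeightOneSpectrum (𝓞 K))} {n : ℕ} {R : Set (K →+* ℝ)}
  {η : HeightOneSpectrum (𝓞 K) → ZMod 2}

/-- the product formula for a finite set of places containing all non-trivial symbols -/
lemma sum_sym_eq (LS : LocalSymbols 2 K) {b y : Kˣ} {U : Finset (HeightOneSpectrum (𝓞 K))}
    (hU : ∀ v, v ∉ U → LS.sym v b y = 1) :
    ∑ v ∈ U, (LS.sym v b y).toAdd = ∑ σ : K →+* ℝ, sg σ b * sg σ y := by
  rw [← pf_eq_sum LS hU]
  exact sum_sym LS b y

/-- The symbols of `b` at the places outside `S`, from the symbols at almost all places. -/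
theorem toAdd_sym_eq (LS : LocalSymbols 2 K) (hη : IsRayR S n R η) {b : Kˣ}
    {T : Finset (HeightOneSpectrum (𝓞 K))} (hST : S ⊆ T) (hT : AboveP 2 T) (hb : b ∈ E T)
    (h : ∀ v, v ∉ T → (η v = 0 ↔ b ∈ locPow 2 v)) {v₀ : HeightOneSpectrum (𝓞 K)} (hv₀ : v₀ ∉ S)
    (x : Kˣ) : (LS.sym v₀ b x).toAdd = ord v₀ x • η v₀ := by
  classical
  by_cases hvT : v₀ ∈ T
  swap
  · exact toAdd_sym_of_notMem LS hT hb h hvT x
  obtain ⟨y, hy0, hy1, hys⟩ := exists_local_pos (approxStmt K) T hvT x
  have hpos : ∀ σ : K →+* ℝ, 0 < σ (y : K) := fun σ => sg_eq_zero_iff.mp (hys σ)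
  have hs0 : LS.sym v₀ b y = LS.sym v₀ b x := by
    have h1 : LS.sym v₀ b (y / x) = 1 := LS.sym_eq_one_of_right hy0
    rwa [_root_.map_div, div_eq_one] at h1
  have ho0 : ord v₀ y • η v₀ = ord v₀ x • η v₀ := by
    apply smul_congr_of_even
    rw [← ord_div]
    exact dvd_ord_of_mem_locPow hy0
  have hray : rayVal S η y = 1 := rayVal_eq_one_of_locPow hη
    (fun v hv => hy1 v (hST hv) fun h' => hv₀ (h' ▸ hv)) fun σ _ => hpos σ
  set U : Finset (HeightOneSpectrum (𝓞 K)) := T ∪ (div y).support with hU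
  have hordU : ∀ v, v ∉ U → ord v y = 0 := by
    intro v hv
    rw [hU, Finset.mem_union, not_or, Finsupp.notMem_support_iff, div_apply] at hv
    exact hv.2
  have hB : ∑ v ∈ U, (if v ∈ S then 0 else ord v y • η v) = 0 := by
    have h2 : (rayVal S η y).toAdd = 0 := by rw [hray]; rfl
    rwa [toAdd_rayVal_eq_sum S U η y fun v hv _ => by rw [hordU v hv, zero_smul]] at h2
  have hA : ∑ v ∈ U, (LS.sym v b y).toAdd = 0 := by
    rw [sum_sym_eq LS fun v hv => ?_]
    · exact Finset.sum_eq_zero fun σ _ => by rw [hys σ, mul_zero]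
    · have hvT' : v ∉ T := fun h' => hv (Finset.mem_union_left _ h')
      have h3 := toAdd_sym_of_notMem LS hT hb h hvT' y
      rw [hordU v hv, zero_smul] at h3
      exact h3
  have hC : ∑ v ∈ U, ((LS.sym v b y).toAdd + if v ∈ S then 0 else ord v y • η v) = 0 := by
    rw [Finset.sum_add_distrib, hA, hB, add_zero]
  rw [Finset.sum_eq_single_of_mem v₀ (Finset.mem_union_left _ hvT), if_neg hv₀, hs0, ho0] at hC
  · exact CharTwo.add_eq_zero.mp hC
  · intro v hv hne
    by_cases hvT' : v ∈ T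
    · rw [LS.sym_eq_one_of_right (hy1 v hvT' hne), toAdd_one, zero_add]
      split_ifs
      · rfl
      · exact smul_eq_zero_of_even (dvd_ord_of_mem_locPow (hy1 v hvT' hne)) _
    · rw [if_neg fun h' => hvT' (hST h'), toAdd_sym_of_notMem LS hT hb h hvT' y,
        CharTwo.add_self_eq_zero]

/-- **Existence theorem** for quadratic ray class characters of an arbitrary number field. -/
theorem exists_kummer_real_all (LS : LocalSymbols 2 K) (hη : IsRayR S n R η) :
    ∃ (b : Kˣ) (T : Finset (HeightOneSpectrum (𝓞 K))), S ⊆ T ∧ AboveP 2 T ∧ b ∈ E T ∧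
      (∀ v, v ∉ T → (η v = 0 ↔ b ∈ locPow 2 v)) ∧ (∀ σ : K →+* ℝ, σ ∉ R → 0 < σ (b : K)) ∧
      ∀ v, v ∉ S → ∀ x : Kˣ, (LS.sym v b x).toAdd = ord v x • η v := by
  classical
  obtain ⟨T, hST, hTp, hcl, hinj⟩ := exists_inj_all (K := K) S
  have hηT : IsRayR T n R η := hη.mono_set hST
  obtain ⟨b, hb, hkey⟩ := exists_unit_formR LS hTp hinj (rayVal T η)
    (fun x hx => rayVal_of_mem_E T η hx)
    (fun x hx hs => rayVal_eq_one_of_locPow hηT hx fun σ _ => sg_eq_zero_iff.mp (hs σ))
  have h : ∀ v, v ∉ T → (η v = 0 ↔ b ∈ locPow 2 v) := by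
    intro v hv
    obtain ⟨x, hx⟩ := hcl (Finsupp.single v 1)
    have hxv : ord v x = 1 := by rw [hx v hv, Finsupp.single_eq_same]
    have h1 := congrArg Multiplicative.toAdd (hkey x)
    rw [toAdd_rayVal_of_single T η hv (fun w hw hwv => by
      rw [hx w hw, Finsupp.single_eq_of_ne hwv]), hxv, one_smul, formR_apply, toAdd_ofAdd] at h1
    have h3 := sum_sym_eq LS (b := b) (y := x) (U := insert v T) (by
      intro w hw
      rw [Finset.mem_insert, not_or] at hw
      have hxw : ord w x = 0 := by rw [hx w hw.2, Finsupp.single_eq_of_ne hw.1]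
      exact LS.unit_mem w (fun h => hw.2 (hTp w h)) b x (mem_E.mp hb w hw.2) hxw)
    rw [Finset.sum_insert hv] at h3
    have h4 : (LS.sym v b x).toAdd = η v := by
      rw [h1, ← h3, add_comm (LS.sym v b x).toAdd, ← add_assoc, CharTwo.add_self_eq_zero, zero_add]
    rw [mem_locPow_iff_sym LS (fun h => hv (hTp v h)) (mem_E.1 hb v hv) hxv, ← h4]
    exact Iff.rfl
  refine ⟨b, T, hST, hTp, hb, h, fun σ hσ => ?_, fun v hv x =>
    toAdd_sym_eq LS hη hST hTp hb h hv x⟩
  obtain ⟨y, hy, hys⟩ := exists_sign_locPow (approxStmt K) T (fun _ => 1) (fun τ => τ = σ)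
  have hy1 : ∀ v ∈ T, y ∈ locPow 2 v := by
    intro v hv
    have := hy v hv
    rwa [div_one] at this
  have h1 := hkey y
  rw [rayVal_eq_one_of_locPow hηT hy1 (fun τ hτ => by
    have h2 : ¬ τ (y : K) < 0 := fun h' => hσ ((hys τ).mp h' ▸ hτ)
    exact lt_of_le_of_ne (not_lt.mp h2) ((map_ne_zero τ).mpr y.ne_zero).symm), formR_apply,
    Finset.sum_eq_zero (fun v hv => by rw [LS.sym_eq_one_of_right (hy1 v hv), toAdd_one]),
    zero_add, Finset.sum_eq_single_of_mem σ (Finset.mem_univ σ) (fun τ _ hτ => by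
      rw [zmod_two_eq_zero (t := sg τ y) fun h' => hτ ((hys τ).mp (sg_eq_one_iff.mp h')),
        mul_zero]), sg_eq_one_iff.mpr ((hys σ).mpr rfl), mul_one] at h1
  exact sg_eq_zero_iff.mp h1.symm

open Classical in
/-- the quadratic character of `K(√b)` -/
noncomputable def char (b : Kˣ) (v : HeightOneSpectrum (𝓞 K)) : ZMod 2 :=
  if b ∈ locPow 2 v then 0 else 1

omit [NumberField K] in
lemma char_eq_zero_iff {b : Kˣ} {v : HeightOneSpectrum (𝓞 K)} [NumberField K] :
    char b v = 0 ↔ b ∈ locPow 2 v := by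
  rw [char]
  split_ifs with h
  · simp [h]
  · simp [h]

/-- **Reciprocity law** for the quadratic extension `K(√b)` of an arbitrary number field. -/
theorem exists_isRayR (b : Kˣ) {T : Finset (HeightOneSpectrum (𝓞 K))} (hT : AboveP 2 T)
    (hb : b ∈ E T) : ∃ n, IsRayR T n {σ : K →+* ℝ | σ (b : K) < 0} (char b) := by
  classical
  obtain ⟨LS⟩ := Fermat.Agent.CFT.Bridge.nonempty_localSymbols_all K
    (Fermat.Agent.CFT.Global2.Unr.isPrimitiveRoot_neg_one' K)
  choose m hm using fun v : HeightOneSpectrum (𝓞 K) => exists_cong_le_locPow 2 two_ne_zero v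
  refine ⟨T.sup m, fun y hy hs => ?_⟩
  have hyT : ∀ v ∈ T, y ∈ locPow 2 v := fun v hv => hm v (cong_anti v (Finset.le_sup hv) (hy v hv))
  set U : Finset (HeightOneSpectrum (𝓞 K)) := T ∪ (div y).support with hU
  have hordU : ∀ v, v ∉ U → ord v y = 0 := by
    intro v hv
    rw [hU, Finset.mem_union, not_or, Finsupp.notMem_support_iff, div_apply] at hv
    exact hv.2
  have key : ∀ v, v ∉ T → (LS.sym v b y).toAdd = ord v y • char b v := fun v hv =>
    toAdd_sym_of_notMem LS hT hb (fun _ _ => char_eq_zero_iff) hv y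
  have h1 := sum_sym_eq LS (b := b) (y := y) (U := U) (by
    intro v hv
    have h3 := key v fun h' => hv (Finset.mem_union_left _ h')
    rw [hordU v hv, zero_smul] at h3
    exact h3)
  have h2 : ∑ σ : K →+* ℝ, sg σ b * sg σ y = 0 := Finset.sum_eq_zero fun σ _ => by
    by_cases hσ : σ (b : K) < 0
    · rw [sg_eq_zero_iff.mpr (hs σ hσ), mul_zero]
    · rw [zmod_two_eq_zero fun h' => hσ (sg_eq_one_iff.mp h'), zero_mul]
  apply toAdd_eq_zero.mp
  rw [toAdd_rayVal_eq_sum T U (char b) y fun v hv _ => by rw [hordU v hv, zero_smul]]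
  refine (Finset.sum_congr rfl fun v _ => ?_).trans (h1.trans h2)
  split_ifs with hv
  · rw [LS.sym_eq_one_of_right (hyT v hv), toAdd_one]
  · exact (key v hv).symm

/-- **Class field theory of the quadratic extensions of `K`**: a function `η` on the finite places
is (almost everywhere) a quadratic ray class character, with real places in `R`, iff it is (almost
everywhere) the character of a quadratic extension `K(√b)`, `b` positive outside `R`. -/
theorem isRayR_iff : (∃ S n, IsRayR S n R η) ↔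
    ∃ b : Kˣ, (∀ σ : K →+* ℝ, σ ∉ R → 0 < σ (b : K)) ∧
      ∃ T : Finset (HeightOneSpectrum (𝓞 K)), ∀ v, v ∉ T →
        (η v = 0 ↔ IsSquare (algebraMap K (v.adicCompletion K) b)) := by
  classical
  constructor
  · rintro ⟨S, n, h⟩
    obtain ⟨LS⟩ := Fermat.Agent.CFT.Bridge.nonempty_localSymbols_all K
      (Fermat.Agent.CFT.Global2.Unr.isPrimitiveRoot_neg_one' K)
    obtain ⟨b, T, -, -, -, h1, h2, -⟩ := exists_kummer_real_all LS h
    exact ⟨b, h2, T, fun v hv => by rw [h1 v hv, mem_locPow_two_iff]⟩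
  · rintro ⟨b, hs, T, h⟩
    obtain ⟨T', hTT', hT'2, -, hF⟩ := exists_good (K := K) 2 two_ne_zero T {b}
    obtain ⟨n, hn⟩ := exists_isRayR b hT'2 (hF b (Finset.mem_singleton_self b))
    refine ⟨T', n, (hn.mono_real fun σ hσ => ?_).congr fun v hv => ?_⟩
    · by_contra h'
      exact absurd (hs σ h') (not_lt.mpr (le_of_lt hσ))
    · have h1 := h v fun h' => hv (hTT' h')
      rw [← mem_locPow_two_iff, ← char_eq_zero_iff] at h1
      revert h1
      generalize η v = s
      generalize char b v = t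
      revert s t
      decide

/-- **Uniqueness**: elements which are squares at the same places, up to finitely many, differ by a
square. -/
theorem exists_sq_of_agree {b b' : Kˣ} {T : Finset (HeightOneSpectrum (𝓞 K))}
    (h : ∀ v, v ∉ T → (b ∈ locPow 2 v ↔ b' ∈ locPow 2 v)) : ∃ c : Kˣ, c ^ 2 = b * b' := by
  classical
  obtain ⟨LS⟩ := Fermat.Agent.CFT.Bridge.nonempty_localSymbols_all K
    (Fermat.Agent.CFT.Global2.Unr.isPrimitiveRoot_neg_one' K)
  obtain ⟨T', hTT', hT'2, -, hF⟩ := exists_good (K := K) 2 two_ne_zero T {b, b'}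
  refine exists_sq_of_forall_locPow T' fun v hv => ?_
  rw [LS.mem_locPow_iff]
  intro y
  rw [map_mul, MonoidHom.mul_apply]
  have h1 := toAdd_sym_of_notMem LS hT'2 (hF b (by simp)) (η := char b)
    (fun _ _ => char_eq_zero_iff) hv y
  have h2 := toAdd_sym_of_notMem LS hT'2 (hF b' (by simp)) (η := char b)
    (fun w hw => char_eq_zero_iff.trans (h w fun h' => hw (hTT' h'))) hv y
  apply Multiplicative.toAdd.injective
  rw [toAdd_mul, h1, h2, CharTwo.add_self_eq_zero, toAdd_one]

/-- **The unramified quadratic extensions of `K`**: quadratic characters of the narrow class group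
(`R` all real embeddings), of the class group (`R = ∅`) and all groups between them correspond to
the quadratic extensions `K(√b)` which are unramified at all finite places and split at the real
places outside `R`.  Here `K(√b)` is unramified at `v` if `(b, x)_v` depends only on
`ord_v(x)`. -/
theorem narrow_iff (LS : LocalSymbols 2 K) :
    (∀ x : Kˣ, (∀ σ ∈ R, 0 < σ (x : K)) → rayVal ∅ η x = 1) ↔
      ∃ b : Kˣ, (∀ σ : K →+* ℝ, σ ∉ R → 0 < σ (b : K)) ∧
        ∀ v, ∀ x : Kˣ, (LS.sym v b x).toAdd = ord v x • η v := by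
  classical
  constructor
  · intro h
    obtain ⟨b, T, -, -, -, -, h1, h2⟩ := exists_kummer_real_all LS (S := ∅) (n := 0) (R := R)
      (η := η) (fun x _ hs => h x hs)
    exact ⟨b, h1, fun v x => h2 v (Finset.notMem_empty v) x⟩
  · rintro ⟨b, hs, h⟩ y hy
    have hordU : ∀ v : HeightOneSpectrum (𝓞 K), v ∉ (div y).support → ord v y = 0 := by
      intro v hv
      rwa [Finsupp.notMem_support_iff, div_apply] at hv
    have h1 := sum_sym_eq LS (b := b) (y := y) (U := (div y).support) (by
      intro v hv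
      have h3 := h v y
      rw [hordU v hv, zero_smul] at h3
      exact h3)
    have h2 : ∑ σ : K →+* ℝ, sg σ b * sg σ y = 0 := Finset.sum_eq_zero fun σ _ => by
      by_cases hσ : σ ∈ R
      · rw [sg_eq_zero_iff.mpr (hy σ hσ), mul_zero]
      · rw [sg_eq_zero_iff.mpr (hs σ hσ), zero_mul]
    apply toAdd_eq_zero.mp
    rw [toAdd_rayVal_eq_sum ∅ (div y).support η y fun v hv _ => by rw [hordU v hv, zero_smul]]
    refine (Finset.sum_congr rfl fun v _ => ?_).trans (h1.trans h2)
    rw [if_neg (Finset.notMem_empty v), h v y]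

end Main

end Fermat.Agent.Cor.CFT2
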